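import Fermat.Agent.S52.CH.Endgame

/-!
# S58 / GCH, task GC-End : the abstract endgame without the hypothesis `Odd q`
-/

set_option autoImplicit false

namespace Fermat.Agent.S58.GCH

open Fermat.Agent.S52.CH

variable {R : Type*} [Ring R] (H : R → ℕ → Prop)

theorem endgame'
    (hneg : ∀ α D, H α D → H (-α) D)
    (hladder : ∀ α β D₁ D₂ D₃, H α D₁ → H β D₂ → H (α - β) D₃ →
      ∃ D₄, H (α + β) D₄ ∧ D₄ + D₃ = 2 * (D₁ + D₂))
    (hcomp : ∀ α β D D', H α D → H β D' → H (α * β) (D * D'))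
    (hzero : ∀ α, H α 0 → α = 0)
    (h0 : H 0 0) (h1 : H 1 1) (φ : R) (q N : ℕ) (hφ : H φ q) (hφ1 : H (φ - 1) N) :
    (2 : ℤ) • (φ * φ - ((q : ℤ) + 1 - (N : ℤ)) • φ + (q : ℤ) • (1 : R)) = 0 := by
  set a : ℤ := (q : ℤ) + 1 - (N : ℤ) with ha
  -- degrees of `φ - m`
  have hA : ∀ m : ℤ, ∃ D, H (φ - m • (1 : R)) D ∧ (D : ℤ) = m ^ 2 - a * m + q := by
    intro m
    rcases le_total 0 m with hm | hm
    · obtain ⟨j, rfl⟩ := Int.eq_ofNat_of_zero_le hm
      obtain ⟨⟨D, hD, eD⟩, -⟩ := ladder_seq H hladder φ (-1) 1 q N (hneg 1 1 h1) hφ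
        (by rw [← sub_eq_add_neg]; exact hφ1) j
      refine ⟨D, ?_, ?_⟩
      · have : φ - (j : ℤ) • (1 : R) = φ + (j : ℤ) • (-1 : R) := by module
        rw [this]; exact hD
      · rw [eD, ha]; push_cast; ring
    · obtain ⟨j, hj⟩ := Int.eq_ofNat_of_zero_le (neg_nonneg.mpr hm)
      obtain ⟨-, ⟨D, hD, eD⟩⟩ := ladder_seq H hladder (φ - 1) 1 1 N q h1 hφ1
        (by rw [sub_add_cancel]; exact hφ) j
      have hm' : m = -(j : ℤ) := by omega
      refine ⟨D, ?_, ?_⟩
      · have : φ - m • (1 : R) = φ - 1 + ((j : ℤ) + 1) • (1 : R) := by rw [hm']; module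
        rw [this]; exact hD
      · rw [eD, ha, hm']; push_cast; ring
  -- degrees of the products
  have hB : ∀ m : ℤ, ∃ D : ℕ, (D : ℤ) = m ^ 2 - a * m + q ∧
      H (φ * φ - a • φ + (m * (a - m)) • (1 : R)) (D * D) := by
    intro m
    obtain ⟨D, hD, eD⟩ := hA m
    obtain ⟨D', hD', eD'⟩ := hA (a - m)
    have hDD : D' = D := by
      have : (D' : ℤ) = D := by rw [eD, eD']; ring
      exact_mod_cast this
    subst hDD
    refine ⟨D', eD, ?_⟩
    have := hcomp _ _ _ _ hD hD'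
    have e : (φ - m • (1 : R)) * (φ - (a - m) • (1 : R))
        = φ * φ - a • φ + (m * (a - m)) • (1 : R) := by
      simp only [sub_mul, mul_sub, smul_mul_assoc, mul_smul_comm, one_mul, mul_one]
      module
    rw [e] at this
    exact this
  rcases Int.even_or_odd' a with ⟨t, ht | ht⟩
  · -- `a = 2 t`
    obtain ⟨c, ec, hc⟩ := hB (t - 1)
    obtain ⟨c', ec', hc'⟩ := hB t
    obtain ⟨⟨D, hD, eD⟩, -⟩ := ladder_seq H hladder
      (φ * φ - a • φ + ((t - 1) * (a - (t - 1))) • (1 : R)) 1 1 (c * c) (c' * c') h1 hc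
      (by
        have : φ * φ - a • φ + ((t - 1) * (a - (t - 1))) • (1 : R) + 1
            = φ * φ - a • φ + (t * (a - t)) • (1 : R) := by
          rw [ht]
          have : (t * (2 * t - t) : ℤ) = (t - 1) * (2 * t - (t - 1)) + 1 := by ring
          rw [this]
          module
        rw [this]; exact hc') c
    have hcc : (c' : ℤ) = c - 1 := by rw [ec, ec', ht]; ring
    have hD0 : D = 0 := by
      have : (D : ℤ) = 0 := by
        rw [eD]; push_cast; rw [hcc]; ring
      exact_mod_cast this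
    rw [hD0] at hD
    have h := hzero _ hD
    have e : φ * φ - a • φ + (q : ℤ) • (1 : R)
        = φ * φ - a • φ + ((t - 1) * (a - (t - 1))) • (1 : R) + (c : ℤ) • (1 : R) := by
      rw [ec, ht]
      have : (q : ℤ) = (t - 1) * (2 * t - (t - 1)) + ((t - 1) ^ 2 - 2 * t * (t - 1) + q) := by ring
      nth_rewrite 1 [this]
      module
    rw [e, h, smul_zero]
  · -- `a = 2 t + 1`
    obtain ⟨c, ec, hc⟩ := hB (t - 1)
    obtain ⟨c', ec', hc'⟩ := hB t
    obtain ⟨D2, h2, e2⟩ := hladder 1 1 1 1 0 h1 h1 (by rw [sub_self]; exact h0)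
    have hD2 : D2 = 4 := by omega
    subst hD2
    have hcc : (c' : ℤ) = c - 2 := by rw [ec, ec', ht]; ring
    have hstep : φ * φ - a • φ + ((t - 1) * (a - (t - 1))) • (1 : R) + (1 + 1)
        = φ * φ - a • φ + (t * (a - t)) • (1 : R) := by
      rw [ht]
      have : (t * (2 * t + 1 - t) : ℤ) = (t - 1) * (2 * t + 1 - (t - 1)) + 2 := by ring
      rw [this]
      module
    rcases Nat.even_or_odd' c with ⟨j0, hj0 | hj0⟩
    · -- `c = 2 j0`: the ladder reaches `ρ` itself
      obtain ⟨⟨Da, hDa, eDa⟩, -⟩ := ladder_seq H hladder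
        (φ * φ - a • φ + ((t - 1) * (a - (t - 1))) • (1 : R)) (1 + 1) 4 (c * c) (c' * c') h2 hc
        (by rw [hstep]; exact hc') j0
      have hDa0 : Da = 0 := by
        have : (Da : ℤ) = 0 := by
          rw [eDa]; push_cast; rw [hcc, hj0]; push_cast; ring
        exact_mod_cast this
      rw [hDa0] at hDa
      have h := hzero _ hDa
      have hq' : (q : ℤ) = (t - 1) * (a - (t - 1)) + 2 * j0 := by
        have : (c : ℤ) = 2 * j0 := by exact_mod_cast hj0
        rw [← this, ec, ht]; ring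
      have e : φ * φ - a • φ + (q : ℤ) • (1 : R)
          = φ * φ - a • φ + ((t - 1) * (a - (t - 1))) • (1 : R) + (j0 : ℤ) • (1 + 1 : R) := by
        rw [hq']; module
      rw [e, h, smul_zero]
    obtain ⟨⟨Da, hDa, eDa⟩, ⟨Db, hDb, eDb⟩⟩ := ladder_seq H hladder
      (φ * φ - a • φ + ((t - 1) * (a - (t - 1))) • (1 : R)) (1 + 1) 4 (c * c) (c' * c') h2 hc
      (by
        have : φ * φ - a • φ + ((t - 1) * (a - (t - 1))) • (1 : R) + (1 + 1)
            = φ * φ - a • φ + (t * (a - t)) • (1 : R) := by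
          rw [ht]
          have : (t * (2 * t + 1 - t) : ℤ) = (t - 1) * (2 * t + 1 - (t - 1)) + 2 := by ring
          rw [this]
          module
        rw [this]; exact hc') j0
    have hDa1 : Da = 1 := by
      have : (Da : ℤ) = 1 := by
        rw [eDa]; push_cast; rw [hcc, hj0]; push_cast; ring
      exact_mod_cast this
    have hDb1 : Db = 1 := by
      have : (Db : ℤ) = 1 := by
        rw [eDb]; push_cast; rw [hcc, hj0]; push_cast; ring
      exact_mod_cast this
    subst hDa1 hDb1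
    set ρ : R := φ * φ - a • φ + (q : ℤ) • (1 : R) with hρ
    have hq' : (q : ℤ) = (t - 1) * (a - (t - 1)) + (2 * j0 + 1) := by
      have : (c : ℤ) = 2 * j0 + 1 := by exact_mod_cast hj0
      rw [← this, ec, ht]; ring
    have ea : φ * φ - a • φ + ((t - 1) * (a - (t - 1))) • (1 : R) + (j0 : ℤ) • (1 + 1 : R)
        = ρ - 1 := by
      rw [hρ, hq']; module
    have eb : φ * φ - a • φ + ((t - 1) * (a - (t - 1))) • (1 : R) + ((j0 : ℤ) + 1) • (1 + 1 : R)
        = ρ + 1 := by
      rw [hρ, hq']; module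
    rw [ea] at hDa
    rw [eb] at hDb
    obtain ⟨D, hD, eD⟩ := hladder (ρ + 1) (ρ - 1) 1 1 4 hDb hDa
      (by
        have : ρ + 1 - (ρ - 1) = 1 + 1 := by abel
        rw [this]; exact h2)
    have hD0 : D = 0 := by omega
    rw [hD0] at hD
    have h := hzero _ hD
    have : (2 : ℤ) • ρ = ρ + 1 + (ρ - 1) := by module
    rw [this, h]

end Fermat.Agent.S58.GCH
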