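import Fermat.Agent.S58.GCH.Ident
import Fermat.Agent.S52.CH.Base

/-!
# S58 / GCH, task GC-Base : the `x`-representation of Frobenius, points over every abscissa
-/

set_option autoImplicit false
set_option linter.unusedSectionVars false

noncomputable section

namespace Fermat.Agent.S58.GCH

open Polynomial WeierstrassCurve Fermat.Agent.S05 Fermat.Agent.S52.CH

variable (W : WeierstrassCurve ℤ) (ℓ : ℕ) [Fact ℓ.Prime]

theorem xrep_frobPt (k : Type) [Field k] [CharP k ℓ] [DecidableEq k] :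
    XRep (W := (W⁄k).toAffine) (fun P => frobPt W ℓ k P) (X ^ ℓ) 1 := by
  have hprime : ℓ.Prime := Fact.out
  refine ⟨isCoprime_one_right, ?_, ?_⟩
  · rw [degree_one, degree_X_pow]
    exact_mod_cast hprime.pos
  · filter_upwards with x y h
    obtain ⟨h', hfrob⟩ : ∃ h', frobPt W ℓ k (.some x y h) = .some (x ^ ℓ) (y ^ ℓ) h' := ⟨_, rfl⟩
    rw [hfrob]
    simp

theorem Δ_ne_zero (hΔ : ¬ (ℓ : ℤ) ∣ W.Δ) (k : Type) [Field k] [CharP k ℓ] : (W⁄k).Δ ≠ 0 := by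
  rw [WeierstrassCurve.baseChange, WeierstrassCurve.map_Δ, algebraMap_int_eq, eq_intCast, Ne,
    CharP.intCast_eq_zero_iff k ℓ]
  exact hΔ

theorem exists_nonsingular (hΔ : ¬ (ℓ : ℤ) ∣ W.Δ) (k : Type) [Field k] [CharP k ℓ] [IsAlgClosed k]
    (x : k) : ∃ y, (W⁄k).toAffine.Nonsingular x y := by
  obtain ⟨y, hy⟩ := exists_y k (ev (io ℓ k) x (lpol W ℓ)) (ev (io ℓ k) x (cpol W ℓ))
  exact ⟨y, (Affine.equation_iff_nonsingular_of_Δ_ne_zero (Δ_ne_zero W ℓ hΔ k)).mp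
    ((equation_iff W ℓ x y).mpr hy)⟩

end Fermat.Agent.S58.GCH
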