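import Fermat.Agent.S58.GCH.Defs

/-!
# S58, chapter GCH, task GC-Count: `#W(𝔽_ℓ) = 1 + #Z1 + 2 #Z2`.
-/

set_option autoImplicit false
set_option linter.unusedSectionVars false

namespace Fermat.Agent.S58.GCH

open Polynomial WeierstrassCurve

variable (W : WeierstrassCurve ℤ) (ℓ : ℕ) [Fact ℓ.Prime]

/-- the two roots of `y² + l y = c`. -/
theorem eqn_iff_of_eqn {x y₀ : ZMod ℓ} (h₀ : Eqn W ℓ x y₀) (y : ZMod ℓ) :
    Eqn W ℓ x y ↔ y = y₀ ∨ y = -y₀ - (lpol W ℓ).eval x := by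
  unfold Eqn at h₀ ⊢
  constructor
  · intro h
    have h1 : (y - y₀) * (y - (-y₀ - (lpol W ℓ).eval x)) = 0 := by linear_combination h - h₀
    rcases mul_eq_zero.mp h1 with h2 | h2
    · exact Or.inl (sub_eq_zero.mp h2)
    · exact Or.inr (sub_eq_zero.mp h2)
  · rintro (rfl | rfl)
    · exact h₀
    · linear_combination h₀

theorem disjoint_Z1_Z2 : Disjoint (Z1 W ℓ) (Z2 W ℓ) := by
  rw [Finset.disjoint_left]
  intro x h1 h2
  rw [mem_Z1] at h1
  rw [mem_Z2] at h2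
  obtain ⟨y₁, e1, t1⟩ := h1
  obtain ⟨y₂, e2, t2⟩ := h2
  apply t2
  rcases (eqn_iff_of_eqn W ℓ e1 y₂).mp e2 with rfl | rfl
  · exact t1
  · linear_combination -t1

theorem disjoint_Z0_Z1 : Disjoint (Z0 W ℓ) (Z1 W ℓ) := by
  rw [Finset.disjoint_left]
  intro x h0 h1
  rw [mem_Z0] at h0
  rw [mem_Z1] at h1
  obtain ⟨y₁, e1, -⟩ := h1
  exact h0 y₁ e1

theorem disjoint_Z0_Z2 : Disjoint (Z0 W ℓ) (Z2 W ℓ) := by
  rw [Finset.disjoint_left]
  intro x h0 h1
  rw [mem_Z0] at h0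
  rw [mem_Z2] at h1
  obtain ⟨y₁, e1, -⟩ := h1
  exact h0 y₁ e1

theorem union_Z : Z0 W ℓ ∪ Z1 W ℓ ∪ Z2 W ℓ = Finset.univ := by
  ext x
  simp only [Finset.mem_union, mem_Z0, mem_Z1, mem_Z2, Finset.mem_univ, iff_true]
  by_cases h : ∃ y, Eqn W ℓ x y
  · obtain ⟨y, hy⟩ := h
    by_cases h2 : 2 * y + (lpol W ℓ).eval x = 0
    · exact Or.inl (Or.inr ⟨y, hy, h2⟩)
    · exact Or.inr ⟨y, hy, h2⟩
  · push Not at h
    exact Or.inl (Or.inl h)

theorem card_Z_add : (Z0 W ℓ).card + (Z1 W ℓ).card + (Z2 W ℓ).card = ℓ := by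
  have hd : Disjoint (Z0 W ℓ ∪ Z1 W ℓ) (Z2 W ℓ) :=
    Finset.disjoint_union_left.mpr ⟨disjoint_Z0_Z2 W ℓ, disjoint_Z1_Z2 W ℓ⟩
  rw [← Finset.card_union_of_disjoint (disjoint_Z0_Z1 W ℓ), ← Finset.card_union_of_disjoint hd,
    union_Z, Finset.card_univ, ZMod.card]

open Classical in
theorem count_fibre (x : ZMod ℓ) :
    (Finset.univ.filter fun y : ZMod ℓ => Eqn W ℓ x y).card
      = (if x ∈ Z1 W ℓ then 1 else 0) + 2 * (if x ∈ Z2 W ℓ then 1 else 0) := by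
  by_cases h : ∃ y, Eqn W ℓ x y
  · obtain ⟨y₀, h₀⟩ := h
    have hset : (Finset.univ.filter fun y : ZMod ℓ => Eqn W ℓ x y)
        = {y₀, -y₀ - (lpol W ℓ).eval x} := by
      ext y
      simp only [Finset.mem_filter, Finset.mem_univ, true_and, Finset.mem_insert,
        Finset.mem_singleton]
      exact eqn_iff_of_eqn W ℓ h₀ y
    rw [hset]
    by_cases h2 : 2 * y₀ + (lpol W ℓ).eval x = 0
    · have m1 : x ∈ Z1 W ℓ := (mem_Z1 W ℓ).mpr ⟨y₀, h₀, h2⟩
      have m2 : x ∉ Z2 W ℓ := Finset.disjoint_left.mp (disjoint_Z1_Z2 W ℓ) m1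
      have e : -y₀ - (lpol W ℓ).eval x = y₀ := by linear_combination -h2
      rw [if_pos m1, if_neg m2, e]
      simp
    · have m2 : x ∈ Z2 W ℓ := (mem_Z2 W ℓ).mpr ⟨y₀, h₀, h2⟩
      have m1 : x ∉ Z1 W ℓ := Finset.disjoint_right.mp (disjoint_Z1_Z2 W ℓ) m2
      have e : y₀ ≠ -y₀ - (lpol W ℓ).eval x := by
        intro e
        apply h2
        linear_combination e
      rw [if_neg m1, if_pos m2, Finset.card_pair e]
  · push Not at h
    have m0 : x ∈ Z0 W ℓ := (mem_Z0 W ℓ).mpr h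
    have m1 : x ∉ Z1 W ℓ := Finset.disjoint_left.mp (disjoint_Z0_Z1 W ℓ) m0
    have m2 : x ∉ Z2 W ℓ := Finset.disjoint_left.mp (disjoint_Z0_Z2 W ℓ) m0
    rw [if_neg m1, if_neg m2]
    simp only [mul_zero, add_zero, Finset.card_eq_zero]
    ext y
    simp [h y]

/-- the affine solutions. -/
abbrev countS : Type := {p : ZMod ℓ × ZMod ℓ // Eqn W ℓ p.1 p.2}

open Classical in
theorem count_card_S :
    Fintype.card (countS W ℓ) = (Z1 W ℓ).card + 2 * (Z2 W ℓ).card := by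
  have h1 : Fintype.card (countS W ℓ)
      = ∑ x : ZMod ℓ, (Finset.univ.filter fun y : ZMod ℓ => Eqn W ℓ x y).card := by
    rw [Fintype.card_subtype]
    rw [Finset.card_eq_sum_card_fiberwise (f := Prod.fst) (t := Finset.univ)
      (fun _ _ => Finset.mem_univ _)]
    refine Finset.sum_congr rfl fun x _ => ?_
    refine Finset.card_bij (fun p _ => p.2) ?_ ?_ ?_
    · intro p hp
      simp only [Finset.mem_filter, Finset.mem_univ, true_and] at hp ⊢
      rw [← hp.2]; exact hp.1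
    · intro p hp p' hp' hpp
      simp only [Finset.mem_filter, Finset.mem_univ, true_and] at hp hp'
      exact Prod.ext (hp.2.trans hp'.2.symm) hpp
    · intro y hy
      simp only [Finset.mem_filter, Finset.mem_univ, true_and] at hy
      exact ⟨(x, y), by simp [hy], rfl⟩
  rw [h1, Finset.sum_congr rfl fun x _ => count_fibre W ℓ x, Finset.sum_add_distrib,
    ← Finset.mul_sum]
  simp

theorem red_Δ_ne_zero (hΔ : ¬ (ℓ : ℤ) ∣ W.Δ) : (W.reductionMod ℓ).Δ ≠ 0 := by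
  rw [reductionMod, map_Δ, eq_intCast, Ne, ZMod.intCast_zmod_eq_zero_iff_dvd]
  exact hΔ

/-- points = solutions + the point at infinity. -/
def countEquiv (hΔ : ¬ (ℓ : ℤ) ∣ W.Δ) :
    (W.reductionMod ℓ).toAffine.Point ≃ Option (countS W ℓ) where
  toFun
    | .zero => none
    | .some x y h => some ⟨(x, y), (equation_red_iff W ℓ x y).mp h.1⟩
  invFun
    | none => .zero
    | some p => .some p.1.1 p.1.2
        ((Affine.equation_iff_nonsingular_of_Δ_ne_zero (red_Δ_ne_zero W ℓ hΔ)).mp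
          ((equation_red_iff W ℓ p.1.1 p.1.2).mpr p.2))
  left_inv := by
    rintro (_ | ⟨x, y, h⟩) <;> rfl
  right_inv := by
    rintro (_ | ⟨⟨x, y⟩, h⟩) <;> rfl

/-- TASK GC-Count. -/
theorem card_red (hΔ : ¬ (ℓ : ℤ) ∣ W.Δ) :
    Nat.card (W.reductionMod ℓ).toAffine.Point = 1 + (Z1 W ℓ).card + 2 * (Z2 W ℓ).card := by
  classical
  rw [Nat.card_congr (countEquiv W ℓ hΔ), Nat.card_eq_fintype_card, Fintype.card_option,
    count_card_S W ℓ]
  ring

end Fermat.Agent.S58.GCH
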