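import Fermat.Agent.S58.GCH.Defs

/-!
# S58, chapter GCH, task GC-Pt: the abscissa of `φ P - P`.
-/

set_option autoImplicit false
set_option linter.unusedSectionVars false

namespace Fermat.Agent.S58.GCH

open Polynomial WeierstrassCurve WeierstrassCurve.Affine Fermat.Agent.S05

variable (W : WeierstrassCurve ℤ) (ℓ : ℕ) [Fact ℓ.Prime]

/-- abstract form: `y^ℓ = U + V y`, `2 U - V l(x) = - l(x^ℓ)`. -/
theorem frob_sub_pt_aux (k : Type) [Field k] [CharP k ℓ] [DecidableEq k] (x y : k)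
    (h : (W⁄k).Nonsingular x y) (hx : x ^ ℓ ≠ x) (U Vv : k) (hy : y ^ ℓ = U + Vv * y)
    (htr : 2 * U - Vv * ((W.a₁ : k) * x + (W.a₃ : k)) = -((W.a₁ : k) * x ^ ℓ + (W.a₃ : k))) :
    pX (frobPt W ℓ k (.some x y h) - .some x y h) * (x ^ ℓ - x) ^ 2 =
      pZ (frobPt W ℓ k (.some x y h) - .some x y h) *
        ((Vv + 1) ^ 2 * (x ^ 3 + (W.a₂ : k) * x ^ 2 + (W.a₄ : k) * x + (W.a₆ : k))
          + (U + ((W.a₁ : k) * x + (W.a₃ : k))) * (Vv + 1) * ((W.a₁ : k) * x + (W.a₃ : k))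
          - (U + ((W.a₁ : k) * x + (W.a₃ : k))) ^ 2
          - ((W.a₂ : k) + x ^ ℓ + x) * (x ^ ℓ - x) ^ 2) := by
  obtain ⟨h', hfrob⟩ : ∃ h', frobPt W ℓ k (.some x y h) = .some (x ^ ℓ) (y ^ ℓ) h' := ⟨_, rfl⟩
  have heq := (Affine.equation_iff x y).mp h.1
  simp only [WeierstrassCurve.baseChange, map_a₁, map_a₂, map_a₃, map_a₄, map_a₆, algebraMap_int_eq,
    eq_intCast] at heq
  rw [hfrob, sub_eq_add_neg, Point.neg_some, Point.add_of_X_ne hx]
  simp only [pX_some, pZ_some, one_mul]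
  have hne : x ^ ℓ - x ≠ 0 := sub_ne_zero.2 hx
  rw [slope_of_X_ne hx]
  simp only [addX, negY, WeierstrassCurve.baseChange, map_a₁, map_a₂, map_a₃, algebraMap_int_eq, eq_intCast]
  rw [hy]
  field_simp
  linear_combination (U + Vv * y + y + (W.a₁ : k) * x + (W.a₃ : k)) * htr + (Vv + 1) ^ 2 * heq

variable {ℓ}

/-- `y^j = u_j(x) + v_j(x) y` on the curve. -/
theorem pt_pow_eq_uv {R : Type*} [CommRing R] (f : ZMod ℓ →+* R) (x y : R)
    (h : y ^ 2 + ev f x (lpol W ℓ) * y = ev f x (cpol W ℓ)) (j : ℕ) :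
    y ^ j = ev f x (uv W ℓ j).1 + ev f x (uv W ℓ j).2 * y := by
  induction j with
  | zero => simp [uv_zero]
  | succ j ih =>
    rw [pow_succ, ih, uv_succ]
    simp only [map_mul, map_sub]
    linear_combination (ev f x (uv W ℓ j).2) * h

variable (ℓ)

/-- the trace identity at a point. -/
theorem pt_trace (k : Type) [Field k] [CharP k ℓ] (x y : k)
    (h : y ^ 2 + ev (io ℓ k) x (lpol W ℓ) * y = ev (io ℓ k) x (cpol W ℓ)) :
    2 * ev (io ℓ k) x (upol W ℓ) - ev (io ℓ k) x (vpol W ℓ) * ((W.a₁ : k) * x + (W.a₃ : k))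
      = -((W.a₁ : k) * x ^ ℓ + (W.a₃ : k)) := by
  have h1 := pt_pow_eq_uv W (io ℓ k) x y h ℓ
  have h' : (-y - ev (io ℓ k) x (lpol W ℓ)) ^ 2
      + ev (io ℓ k) x (lpol W ℓ) * (-y - ev (io ℓ k) x (lpol W ℓ)) = ev (io ℓ k) x (cpol W ℓ) := by
    linear_combination h
  have h2 := pt_pow_eq_uv W (io ℓ k) x _ h' ℓ
  have h3 : y ^ ℓ + (-y - ev (io ℓ k) x (lpol W ℓ)) ^ ℓ = -((W.a₁ : k) * x ^ ℓ + (W.a₃ : k)) := by
    have e := map_add (frobenius k ℓ) y (-y - ev (io ℓ k) x (lpol W ℓ))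
    rw [show y + (-y - ev (io ℓ k) x (lpol W ℓ)) = -ev (io ℓ k) x (lpol W ℓ) by ring, map_neg,
      ev_lpol, map_add, map_mul, map_intCast, map_intCast] at e
    simp only [frobenius_def] at e
    rw [ev_lpol]
    exact e.symm
  rw [h1, h2, ev_lpol] at h3
  change _ = _ at h3
  rw [upol, vpol]
  linear_combination h3

/-- TASK GC-Pt. -/
theorem frob_sub_pt (k : Type) [Field k] [CharP k ℓ] [DecidableEq k] (x y : k)
    (h : (W⁄k).Nonsingular x y) (hx : x ^ ℓ ≠ x) :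
    pX (frobPt W ℓ k (.some x y h) - .some x y h) * (x ^ ℓ - x) ^ 2 =
      pZ (frobPt W ℓ k (.some x y h) - .some x y h) * ev (io ℓ k) x (Pm W ℓ) := by
  have heq := (equation_iff W ℓ x y).mp h.1
  rw [ev_Pm, ev_lpol, ev_cpol]
  exact frob_sub_pt_aux W ℓ k x y h hx _ _ (pt_pow_eq_uv W (io ℓ k) x y heq ℓ)
    (pt_trace W ℓ k x y heq)

end Fermat.Agent.S58.GCH
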