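import Fermat.Agent.S58.GCH.Poly
import Fermat.Agent.S58.GCH.Count
import Fermat.Agent.S58.GCH.Pt
import Fermat.Agent.S58.GCH.Base

/-!
# S58 / GCH, task GC-Sub : `φ - 1` has degree `#W(𝔽_ℓ)`  (twin of `S52/CH/FrobSub.lean`)
-/

set_option autoImplicit false
set_option linter.unusedSectionVars false

noncomputable section

namespace Fermat.Agent.S58.GCH

open Polynomial WeierstrassCurve Fermat.Agent.S05 Fermat.Agent.S52.CH

variable (W : WeierstrassCurve ℤ) (ℓ : ℕ) [Fact ℓ.Prime]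

theorem eventually_pow_ne' (k : Type) [Field k] : ∀ᶠ x : k in Filter.cofinite, x ^ ℓ ≠ x := by
  have hprime : ℓ.Prime := Fact.out
  classical
  have hne : (X ^ ℓ - X : k[X]) ≠ 0 := FiniteField.X_pow_card_sub_X_ne_zero _ hprime.one_lt
  have : {x : k | ¬ x ^ ℓ ≠ x}.Finite := by
    refine ((X ^ ℓ - X : k[X]).roots.toFinset.finite_toSet).subset ?_
    intro x hx
    simp only [Set.mem_ofPred_eq, not_not] at hx
    simp only [Finset.mem_coe, Multiset.mem_toFinset, mem_roots hne, IsRoot.def, eval_sub,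
      eval_pow, eval_X, hx, sub_self]
  exact this

theorem hasDeg_frob_sub_one (hΔ : ¬ (ℓ : ℤ) ∣ W.Δ) (k : Type) [Field k] [CharP k ℓ]
    [DecidableEq k] :
    HasDeg (W := (W⁄k).toAffine) (fun P => frobPt W ℓ k P - P)
      (Nat.card (W.reductionMod ℓ).toAffine.Point) := by
  obtain ⟨n, d, e, hc, hdeg, hnd, hne, hde⟩ := exists_frob_sub_poly W ℓ hΔ
  refine ⟨n.map (io ℓ k), d.map (io ℓ k), ⟨?_, ?_, ?_⟩, ?_⟩
  · exact hc.map (mapRingHom (io ℓ k))
  · rw [degree_map, degree_map]; exact hdeg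
  · filter_upwards [eventually_pow_ne' ℓ k] with x hx y h
    have h1 := frob_sub_pt W ℓ k x y h hx
    have h2 := congrArg (ev (io ℓ k) x) hde
    rw [map_mul, map_pow, ev_dpol] at h2
    rw [← hne, map_mul, ← h2] at h1
    have he : ev (io ℓ k) x e ≠ 0 := by
      intro h0
      rw [h0, mul_zero] at h2
      exact (pow_ne_zero 2 (sub_ne_zero.mpr hx)) h2.symm
    rw [← ev_eq_eval_map, ← ev_eq_eval_map]
    apply mul_right_cancel₀ he
    linear_combination h1
  · rw [natDegree_map, hnd, card_red W ℓ hΔ]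

end Fermat.Agent.S58.GCH
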