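import Fermat.Agent.S58.Defs
import Fermat.Agent.S52.CH.FrobSplit

/-!
# S58, chapter GCH: definitions

`W` an integral Weierstrass equation, `ℓ` a prime, `q = ℓ`, `𝔽 = ZMod ℓ`.  All polynomials live in `𝔽[X]`:
* `lpol = a₁ X + a₃`, `cpol = X³ + a₂ X² + a₄ X + a₆` (the equation is `y² + l(x) y = c(x)`), `lpolq = l(X^q)`, `cpolq = c(X^q)`, `dpol = X^q - X`;
* `uv j = (u_j, v_j)` with `y^j = u_j(x) + v_j(x) y` on the curve, `upol = u_q`, `vpol = v_q`;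
* `Pm` : `x(φ P - P) = Pm(x) / (x^q - x)²`.  With `A = u + l`, `B = v + 1` (so `y^q + y + l = A + B y`): `Pm = B² c + A B l - A² - (a₂ + X^q + X) D²`;
* `Z0, Z1, Z2` : the `x₀ ∈ 𝔽` over which the curve has `0`, `1`, `2` points with `y₀ ∈ 𝔽`;
* `ev f x : 𝔽[X] →+* R` : evaluation at `x : R` through `f : 𝔽 →+* R`;  `io ℓ k : 𝔽 →+* k` for a field `k` of characteristic `ℓ`.
-/

set_option autoImplicit false
set_option linter.unusedSectionVars false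

noncomputable section

namespace Fermat.Agent.S58.GCH

open Polynomial WeierstrassCurve

variable (W : WeierstrassCurve ℤ) (ℓ : ℕ) [Fact ℓ.Prime]

/-- `a₁ X + a₃`. -/
def lpol : (ZMod ℓ)[X] := C (W.a₁ : ZMod ℓ) * X + C (W.a₃ : ZMod ℓ)

/-- `X³ + a₂ X² + a₄ X + a₆`. -/
def cpol : (ZMod ℓ)[X] :=
  X ^ 3 + C (W.a₂ : ZMod ℓ) * X ^ 2 + C (W.a₄ : ZMod ℓ) * X + C (W.a₆ : ZMod ℓ)

/-- `l(X^q)`. -/
def lpolq : (ZMod ℓ)[X] := C (W.a₁ : ZMod ℓ) * X ^ ℓ + C (W.a₃ : ZMod ℓ)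

/-- `c(X^q)`. -/
def cpolq : (ZMod ℓ)[X] :=
  (X ^ ℓ) ^ 3 + C (W.a₂ : ZMod ℓ) * (X ^ ℓ) ^ 2 + C (W.a₄ : ZMod ℓ) * X ^ ℓ + C (W.a₆ : ZMod ℓ)

/-- `X^q - X`. -/
def dpol : (ZMod ℓ)[X] := X ^ ℓ - X

/-- `y^j = u_j + v_j y`. -/
def uv : ℕ → (ZMod ℓ)[X] × (ZMod ℓ)[X]
  | 0 => (1, 0)
  | j + 1 => ((uv j).2 * cpol W ℓ, (uv j).1 - lpol W ℓ * (uv j).2)

theorem uv_zero : uv W ℓ 0 = (1, 0) := rfl

theorem uv_succ (j : ℕ) :
    uv W ℓ (j + 1) = ((uv W ℓ j).2 * cpol W ℓ, (uv W ℓ j).1 - lpol W ℓ * (uv W ℓ j).2) := rfl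

/-- `u_q`. -/
def upol : (ZMod ℓ)[X] := (uv W ℓ ℓ).1

/-- `v_q`. -/
def vpol : (ZMod ℓ)[X] := (uv W ℓ ℓ).2

/-- the numerator of `x(φ P - P)` before cancellation. -/
def Pm : (ZMod ℓ)[X] :=
  (vpol W ℓ + 1) ^ 2 * cpol W ℓ + (upol W ℓ + lpol W ℓ) * (vpol W ℓ + 1) * lpol W ℓ
    - (upol W ℓ + lpol W ℓ) ^ 2 - (C (W.a₂ : ZMod ℓ) + X ^ ℓ + X) * dpol ℓ ^ 2

/-- the equation over `𝔽`. -/
def Eqn (x y : ZMod ℓ) : Prop := y ^ 2 + (lpol W ℓ).eval x * y = (cpol W ℓ).eval x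

open Classical in
/-- no point over `x₀`. -/
def Z0 : Finset (ZMod ℓ) := Finset.univ.filter fun x => ∀ y, ¬ Eqn W ℓ x y

open Classical in
/-- exactly one point over `x₀` (a `2`-torsion point). -/
def Z1 : Finset (ZMod ℓ) :=
  Finset.univ.filter fun x => ∃ y, Eqn W ℓ x y ∧ 2 * y + (lpol W ℓ).eval x = 0

open Classical in
/-- two points over `x₀`. -/
def Z2 : Finset (ZMod ℓ) :=
  Finset.univ.filter fun x => ∃ y, Eqn W ℓ x y ∧ 2 * y + (lpol W ℓ).eval x ≠ 0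

theorem mem_Z0 {x : ZMod ℓ} : x ∈ Z0 W ℓ ↔ ∀ y, ¬ Eqn W ℓ x y := by simp [Z0]

theorem mem_Z1 {x : ZMod ℓ} :
    x ∈ Z1 W ℓ ↔ ∃ y, Eqn W ℓ x y ∧ 2 * y + (lpol W ℓ).eval x = 0 := by simp [Z1]

theorem mem_Z2 {x : ZMod ℓ} :
    x ∈ Z2 W ℓ ↔ ∃ y, Eqn W ℓ x y ∧ 2 * y + (lpol W ℓ).eval x ≠ 0 := by simp [Z2]

variable {ℓ}

/-- evaluation at `x : R` through `f : 𝔽 →+* R`. -/
def ev {R : Type*} [CommRing R] (f : ZMod ℓ →+* R) (x : R) : (ZMod ℓ)[X] →+* R := eval₂RingHom f x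

theorem ev_C {R : Type*} [CommRing R] (f : ZMod ℓ →+* R) (x : R) (a : ZMod ℓ) :
    ev f x (C a) = f a := eval₂_C f x

theorem ev_X {R : Type*} [CommRing R] (f : ZMod ℓ →+* R) (x : R) : ev f x X = x := eval₂_X f x

theorem ev_intCast {R : Type*} [CommRing R] (f : ZMod ℓ →+* R) (x : R) (n : ℤ) :
    ev f x (C (n : ZMod ℓ)) = (n : R) := by rw [ev_C, map_intCast]

theorem ev_id (x : ZMod ℓ) (p : (ZMod ℓ)[X]) : ev (RingHom.id (ZMod ℓ)) x p = p.eval x :=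
  eval₂_id

theorem ev_eq_eval_map {R : Type*} [CommRing R] (f : ZMod ℓ →+* R) (x : R) (p : (ZMod ℓ)[X]) :
    ev f x p = (p.map f).eval x := (eval_map f x).symm

/-- evaluation at a point coming from `𝔽`. -/
theorem ev_apply_map {R : Type*} [CommRing R] (f : ZMod ℓ →+* R) (x : ZMod ℓ) (p : (ZMod ℓ)[X]) :
    ev f (f x) p = f (p.eval x) := eval₂_at_apply f x

theorem ev_lpol {R : Type*} [CommRing R] (f : ZMod ℓ →+* R) (x : R) :
    ev f x (lpol W ℓ) = (W.a₁ : R) * x + (W.a₃ : R) := by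
  simp only [lpol, map_add, map_mul, ev_intCast, ev_X]

theorem ev_cpol {R : Type*} [CommRing R] (f : ZMod ℓ →+* R) (x : R) :
    ev f x (cpol W ℓ) = x ^ 3 + (W.a₂ : R) * x ^ 2 + (W.a₄ : R) * x + (W.a₆ : R) := by
  simp only [cpol, map_add, map_mul, map_pow, ev_intCast, ev_X]

theorem ev_lpolq {R : Type*} [CommRing R] (f : ZMod ℓ →+* R) (x : R) :
    ev f x (lpolq W ℓ) = (W.a₁ : R) * x ^ ℓ + (W.a₃ : R) := by
  simp only [lpolq, map_add, map_mul, map_pow, ev_intCast, ev_X]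

theorem ev_cpolq {R : Type*} [CommRing R] (f : ZMod ℓ →+* R) (x : R) :
    ev f x (cpolq W ℓ) =
      (x ^ ℓ) ^ 3 + (W.a₂ : R) * (x ^ ℓ) ^ 2 + (W.a₄ : R) * x ^ ℓ + (W.a₆ : R) := by
  simp only [cpolq, map_add, map_mul, map_pow, ev_intCast, ev_X]

theorem ev_dpol {R : Type*} [CommRing R] (f : ZMod ℓ →+* R) (x : R) :
    ev f x (dpol ℓ) = x ^ ℓ - x := by
  simp only [dpol, map_sub, map_pow, ev_X]

theorem ev_Pm {R : Type*} [CommRing R] (f : ZMod ℓ →+* R) (x : R) :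
    ev f x (Pm W ℓ) = (ev f x (vpol W ℓ) + 1) ^ 2 * ev f x (cpol W ℓ)
      + (ev f x (upol W ℓ) + ev f x (lpol W ℓ)) * (ev f x (vpol W ℓ) + 1) * ev f x (lpol W ℓ)
      - (ev f x (upol W ℓ) + ev f x (lpol W ℓ)) ^ 2
      - ((W.a₂ : R) + x ^ ℓ + x) * (x ^ ℓ - x) ^ 2 := by
  simp only [Pm, map_add, map_sub, map_mul, map_pow, map_one, ev_intCast, ev_X, ev_dpol]

variable (ℓ)

/-- the prime field of `k`. -/
def io (k : Type*) [Field k] [CharP k ℓ] : ZMod ℓ →+* k := ZMod.castHom (dvd_refl ℓ) k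

theorem io_injective (k : Type*) [Field k] [CharP k ℓ] : Function.Injective (io ℓ k) :=
  (io ℓ k).injective

/-- the elements of the prime field are fixed by the Frobenius. -/
theorem io_pow (k : Type*) [Field k] [CharP k ℓ] (a : ZMod ℓ) : io ℓ k a ^ ℓ = io ℓ k a := by
  rw [← map_pow, ZMod.pow_card]

/-- the equation of `W⁄k`. -/
theorem equation_iff {k : Type*} [Field k] [CharP k ℓ] (x y : k) :
    (W⁄k).toAffine.Equation x y ↔ y ^ 2 + ev (io ℓ k) x (lpol W ℓ) * y = ev (io ℓ k) x (cpol W ℓ) := by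
  rw [Affine.equation_iff, ev_lpol, ev_cpol]
  simp only [baseChange, map_a₁, map_a₂, map_a₃, map_a₄, map_a₆, algebraMap_int_eq, eq_intCast]
  constructor <;> intro h <;> linear_combination h

/-- the equation of the reduction of `W`. -/
theorem equation_red_iff (x y : ZMod ℓ) :
    (W.reductionMod ℓ).toAffine.Equation x y ↔ Eqn W ℓ x y := by
  rw [Affine.equation_iff, Eqn, ← ev_id, ← ev_id, ev_lpol, ev_cpol]
  simp only [reductionMod, map_a₁, map_a₂, map_a₃, map_a₄, map_a₆, eq_intCast]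
  constructor <;> intro h <;> linear_combination h

end Fermat.Agent.S58.GCH
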