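import Fermat.Agent.S58.GCH.UV

/-!
# S58, chapter GCH, leaf GC-Ident : the trace and norm identities for `y^q = u + v y`
-/

set_option autoImplicit false
set_option linter.unusedSectionVars false

noncomputable section

namespace Fermat.Agent.S58.GCH

open Polynomial WeierstrassCurve

variable (W : WeierstrassCurve ℤ) (ℓ : ℕ) [Fact ℓ.Prime]

/-- two polynomials over `𝔽` with the same values on an infinite field of characteristic `ℓ` are equal. -/
theorem eq_of_ev (k : Type*) [Field k] [CharP k ℓ] [Infinite k] {p r : (ZMod ℓ)[X]}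
    (h : ∀ x : k, ev (io ℓ k) x p = ev (io ℓ k) x r) : p = r := by
  apply Polynomial.map_injective (io ℓ k) (io_injective ℓ k)
  apply Polynomial.funext
  intro x
  rw [← ev_eq_eval_map, ← ev_eq_eval_map]
  exact h x

theorem intCast_pow_char (k : Type*) [Field k] [CharP k ℓ] (n : ℤ) : (n : k) ^ ℓ = n := by
  have h := io_pow ℓ k (n : ZMod ℓ)
  rwa [map_intCast] at h

theorem neg_pow_char' (k : Type*) [Field k] [CharP k ℓ] (a : k) : (-a) ^ ℓ = -(a ^ ℓ) := by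
  rw [neg_pow, neg_one_pow_char k ℓ, neg_one_mul]

theorem ev_lpol_pow (k : Type*) [Field k] [CharP k ℓ] (x : k) :
    ev (io ℓ k) x (lpol W ℓ) ^ ℓ = ev (io ℓ k) x (lpolq W ℓ) := by
  rw [ev_lpol, ev_lpolq, add_pow_char, mul_pow, intCast_pow_char, intCast_pow_char]

theorem ev_cpol_pow (k : Type*) [Field k] [CharP k ℓ] (x : k) :
    ev (io ℓ k) x (cpol W ℓ) ^ ℓ = ev (io ℓ k) x (cpolq W ℓ) := by
  rw [ev_cpol, ev_cpolq, add_pow_char, add_pow_char, add_pow_char, mul_pow, mul_pow,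
    intCast_pow_char, intCast_pow_char, intCast_pow_char, ← pow_mul, ← pow_mul, ← pow_mul,
    ← pow_mul, mul_comm 3 ℓ, mul_comm 2 ℓ]

/-- the conjugate point. -/
theorem eqn_conj {R : Type*} [CommRing R] {l c y : R} (h : y ^ 2 + l * y = c) :
    (-y - l) ^ 2 + l * (-y - l) = c := by
  linear_combination h

theorem exists_y (k : Type*) [Field k] [IsAlgClosed k] (l c : k) : ∃ y : k, y ^ 2 + l * y = c := by
  obtain ⟨y, hy⟩ := IsAlgClosed.exists_root (X ^ 2 + C l * X - C c : k[X]) (by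
    have : (X ^ 2 + C l * X - C c : k[X]).degree = 2 := by compute_degree!
    rw [this]; norm_num)
  refine ⟨y, ?_⟩
  simp only [IsRoot.def, eval_sub, eval_add, eval_pow, eval_X, eval_mul, eval_C] at hy
  linear_combination hy

theorem trace_id_ev (k : Type*) [Field k] [CharP k ℓ] [IsAlgClosed k] (x : k) :
    2 * ev (io ℓ k) x (upol W ℓ) - ev (io ℓ k) x (vpol W ℓ) * ev (io ℓ k) x (lpol W ℓ) =
      - ev (io ℓ k) x (lpolq W ℓ) := by
  obtain ⟨y, hy⟩ := exists_y k (ev (io ℓ k) x (lpol W ℓ)) (ev (io ℓ k) x (cpol W ℓ))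
  have h1 := pow_eq_uv W (io ℓ k) x y hy ℓ
  have h2 := pow_eq_uv W (io ℓ k) x _ (eqn_conj hy) ℓ
  have h3 : y ^ ℓ + (-y - ev (io ℓ k) x (lpol W ℓ)) ^ ℓ = -(ev (io ℓ k) x (lpolq W ℓ)) := by
    rw [← add_pow_char, ← ev_lpol_pow, ← neg_pow_char']
    congr 1
    ring
  rw [← h3, h1, h2, upol, vpol]
  ring

theorem norm_id_ev (k : Type*) [Field k] [CharP k ℓ] [IsAlgClosed k] (x : k) :
    ev (io ℓ k) x (upol W ℓ) ^ 2 -
      ev (io ℓ k) x (upol W ℓ) * ev (io ℓ k) x (vpol W ℓ) * ev (io ℓ k) x (lpol W ℓ) -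
      ev (io ℓ k) x (vpol W ℓ) ^ 2 * ev (io ℓ k) x (cpol W ℓ) = - ev (io ℓ k) x (cpolq W ℓ) := by
  obtain ⟨y, hy⟩ := exists_y k (ev (io ℓ k) x (lpol W ℓ)) (ev (io ℓ k) x (cpol W ℓ))
  have h1 := pow_eq_uv W (io ℓ k) x y hy ℓ
  have h2 := pow_eq_uv W (io ℓ k) x _ (eqn_conj hy) ℓ
  have h3 : y ^ ℓ * (-y - ev (io ℓ k) x (lpol W ℓ)) ^ ℓ = -(ev (io ℓ k) x (cpolq W ℓ)) := by
    rw [← mul_pow, ← ev_cpol_pow, ← neg_pow_char']
    congr 1
    linear_combination -hy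
  rw [← h3, h1, h2, upol, vpol]
  linear_combination ((ev (io ℓ k) x (uv W ℓ ℓ).2) ^ 2) * hy

theorem trace_id : 2 * upol W ℓ - vpol W ℓ * lpol W ℓ = - lpolq W ℓ := by
  apply eq_of_ev ℓ (AlgebraicClosure (ZMod ℓ))
  intro x
  simp only [map_sub, map_mul, map_neg, map_ofNat]
  exact trace_id_ev W ℓ _ x

theorem norm_id : upol W ℓ ^ 2 - upol W ℓ * vpol W ℓ * lpol W ℓ - vpol W ℓ ^ 2 * cpol W ℓ =
    - cpolq W ℓ := by
  apply eq_of_ev ℓ (AlgebraicClosure (ZMod ℓ))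
  intro x
  simp only [map_sub, map_mul, map_neg, map_pow]
  exact norm_id_ev W ℓ _ x

end Fermat.Agent.S58.GCH
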