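import Fermat.Agent.S58.GCH.Ident

/-!
# S58, chapter GCH, leaf GC-Lead : `Pm` is monic of degree `2 q + 1`
-/

set_option autoImplicit false
set_option linter.unusedSectionVars false

noncomputable section

namespace Fermat.Agent.S58.GCH

open Polynomial WeierstrassCurve

variable (W : WeierstrassCurve ℤ) (ℓ : ℕ) [Fact ℓ.Prime]

/-- the lower order part of `Pm`. -/
def PmLow : (ZMod ℓ)[X] :=
  X ^ (ℓ + 2) + C (2 * (W.a₂ : ZMod ℓ)) * X ^ (ℓ + 1) + C (W.a₄ : ZMod ℓ) * X ^ ℓ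
    + C (W.a₆ : ZMod ℓ) - X ^ 3 - C (W.a₂ : ZMod ℓ) * X ^ 2 + cpol W ℓ
    + C 2 * (vpol W ℓ * cpol W ℓ) + upol W ℓ * lpol W ℓ + lpol W ℓ * lpolq W ℓ

/-- the simplified form of `Pm`. -/
theorem Pm_eq' : Pm W ℓ = cpolq W ℓ + cpol W ℓ + 2 * vpol W ℓ * cpol W ℓ + upol W ℓ * lpol W ℓ
    + lpol W ℓ * lpolq W ℓ - (C (W.a₂ : ZMod ℓ) + X ^ ℓ + X) * dpol ℓ ^ 2 := by
  unfold Pm
  linear_combination (-1 : (ZMod ℓ)[X]) * norm_id W ℓ - lpol W ℓ * trace_id W ℓ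

theorem Pm_eq : Pm W ℓ = X ^ (2 * ℓ + 1) + PmLow W ℓ := by
  rw [Pm_eq', PmLow, cpolq, dpol]
  simp only [map_mul, map_ofNat]
  ring

theorem natDegree_lpolq_le : (lpolq W ℓ).natDegree ≤ ℓ := by
  unfold lpolq; compute_degree

theorem natDegree_PmLow_le : (PmLow W ℓ).natDegree ≤ 2 * ℓ := by
  have h2 : 2 ≤ ℓ := (Fact.out : ℓ.Prime).two_le
  have hadd : ∀ p q : (ZMod ℓ)[X], p.natDegree ≤ 2 * ℓ → q.natDegree ≤ 2 * ℓ →
      (p + q).natDegree ≤ 2 * ℓ := fun p q hp hq => natDegree_add_le_of_degree_le hp hq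
  have hsub : ∀ p q : (ZMod ℓ)[X], p.natDegree ≤ 2 * ℓ → q.natDegree ≤ 2 * ℓ →
      (p - q).natDegree ≤ 2 * ℓ := fun p q hp hq => (natDegree_sub_le_of_le hp hq).trans (by simp)
  have hC : ∀ (a : ZMod ℓ) (n : ℕ), n ≤ 2 * ℓ → (C a * X ^ n).natDegree ≤ 2 * ℓ :=
    fun a n hn => (natDegree_C_mul_X_pow_le a n).trans hn
  have hX : ∀ n : ℕ, n ≤ 2 * ℓ → (X ^ n : (ZMod ℓ)[X]).natDegree ≤ 2 * ℓ :=
    fun n hn => (natDegree_X_pow_le n).trans hn
  have hc := natDegree_cpol_le W ℓ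
  have hl := natDegree_lpol_le W ℓ
  have hlq := natDegree_lpolq_le W ℓ
  have hu := natDegree_u_le W ℓ ℓ
  have hv := natDegree_v_le W ℓ ℓ
  unfold PmLow
  refine hadd _ _ (hadd _ _ (hadd _ _ (hadd _ _ (hsub _ _ (hsub _ _ (hadd _ _ (hadd _ _ (hadd _ _
    (hX _ (by omega)) (hC _ _ (by omega))) (hC _ _ (by omega))) ?_) (hX _ (by omega)))
    (hC _ _ (by omega))) (by omega)) ?_) ?_) ?_
  · rw [natDegree_C]; omega
  · refine (natDegree_C_mul_le _ _).trans ?_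
    rcases hv with hv | hv
    · rw [vpol, hv, zero_mul, natDegree_zero]; omega
    · have := natDegree_mul_le (p := vpol W ℓ) (q := cpol W ℓ)
      rw [vpol] at this ⊢
      omega
  · have := natDegree_mul_le (p := upol W ℓ) (q := lpol W ℓ)
    rw [upol] at this ⊢
    omega
  · have := natDegree_mul_le (p := lpol W ℓ) (q := lpolq W ℓ)
    omega

theorem natDegree_Pm : (Pm W ℓ).natDegree = 2 * ℓ + 1 := by
  rw [Pm_eq, natDegree_add_eq_left_of_natDegree_lt, natDegree_X_pow]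
  rw [natDegree_X_pow]
  exact Nat.lt_succ_of_le (natDegree_PmLow_le W ℓ)

theorem monic_Pm : (Pm W ℓ).Monic := by
  rw [Pm_eq]
  refine (monic_X_pow _).add_of_left ?_
  rw [degree_X_pow]
  exact lt_of_le_of_lt degree_le_natDegree
    (by exact_mod_cast Nat.lt_succ_of_le (natDegree_PmLow_le W ℓ))

end Fermat.Agent.S58.GCH
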