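import Fermat.Agent.S58.GCH.Ident

/-!
# S58 / GCH, task GC-M0 : over `x₀ ∈ Z0` (no rational point) `u + l` and `v + 1` vanish, so `(X - x₀)² ∣ Pm`
-/

set_option autoImplicit false
set_option linter.unusedSectionVars false

noncomputable section

namespace Fermat.Agent.S58.GCH

open Polynomial WeierstrassCurve

variable (W : WeierstrassCurve ℤ) (ℓ : ℕ) [Fact ℓ.Prime]

theorem mem_range_of_pow_eq (K : Type*) [Field K] [CharP K ℓ] (y : K) (h : y ^ ℓ = y) :
    ∃ t : ZMod ℓ, io ℓ K t = y := by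
  have hprime : ℓ.Prime := Fact.out
  have hroots : (X ^ ℓ - X : (ZMod ℓ)[X]).roots = Finset.univ.val := by
    have := FiniteField.roots_X_pow_card_sub_X (ZMod ℓ)
    rwa [ZMod.card] at this
  have hdeg : (X ^ ℓ - X : (ZMod ℓ)[X]).natDegree = ℓ :=
    FiniteField.X_pow_card_sub_X_natDegree_eq _ hprime.one_lt
  have hmonic : (X ^ ℓ - X : (ZMod ℓ)[X]).Monic := by
    apply monic_X_pow_sub
    rw [degree_X]
    exact_mod_cast hprime.one_lt
  have h1 := prod_multiset_X_sub_C_of_monic_of_roots_card_eq hmonic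
    (by rw [hroots, hdeg]; simp [ZMod.card])
  rw [hroots] at h1
  have h2 : (∏ t : ZMod ℓ, (X - C t) : (ZMod ℓ)[X]) = X ^ ℓ - X := h1
  have h3 := congrArg (ev (io ℓ K) y) h2
  rw [map_prod, map_sub, map_pow, ev_X, h, sub_self, Finset.prod_eq_zero_iff] at h3
  obtain ⟨t, -, ht⟩ := h3
  rw [map_sub, ev_X, ev_C, sub_eq_zero] at ht
  exact ⟨t, ht.symm⟩

theorem eval_of_mem_Z0 {x : ZMod ℓ} (hx : x ∈ Z0 W ℓ) :
    (upol W ℓ + lpol W ℓ).eval x = 0 ∧ (vpol W ℓ + 1).eval x = 0 := by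
  rw [mem_Z0] at hx
  let K := AlgebraicClosure (ZMod ℓ)
  have hinj := io_injective ℓ K
  set f := io ℓ K with hf
  -- no rational solution
  have hno : ∀ t : ZMod ℓ, ¬ ((f t) ^ 2 + f ((lpol W ℓ).eval x) * f t = f ((cpol W ℓ).eval x)) := by
    intro t ht
    apply hx t
    apply hinj
    rw [map_add, map_pow, map_mul]
    exact ht
  obtain ⟨y, hy⟩ := exists_y K (f ((lpol W ℓ).eval x)) (f ((cpol W ℓ).eval x))
  have hyq : (y ^ ℓ) ^ 2 + f ((lpol W ℓ).eval x) * y ^ ℓ = f ((cpol W ℓ).eval x) := by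
    have := congrArg (· ^ ℓ) hy
    simp only [add_pow_char, mul_pow, io_pow, hf] at this
    rw [← this]; ring
  have hne : y ^ ℓ ≠ y := by
    intro h
    obtain ⟨t, ht⟩ := mem_range_of_pow_eq ℓ K y h
    exact hno t (by rw [ht]; exact hy)
  have hconj : y ^ ℓ = - y - f ((lpol W ℓ).eval x) := by
    have : (y ^ ℓ - y) * (y ^ ℓ + y + f ((lpol W ℓ).eval x)) = 0 := by
      linear_combination hyq - hy
    rcases mul_eq_zero.mp this with h | h
    · exact absurd (sub_eq_zero.mp h) hne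
    · linear_combination h
  have huv := pow_eq_uv W f (f x) y (by rw [ev_apply_map, ev_apply_map]; exact hy) ℓ
  rw [ev_apply_map, ev_apply_map, hconj] at huv
  change _ = f ((upol W ℓ).eval x) + f ((vpol W ℓ).eval x) * y at huv
  have hrel : f ((upol W ℓ + lpol W ℓ).eval x) + f ((vpol W ℓ + 1).eval x) * y = 0 := by
    rw [eval_add, eval_add, eval_one, map_add, map_add, map_one]
    linear_combination -huv
  have hB : (vpol W ℓ + 1).eval x = 0 := by
    by_contra hB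
    have hB' : f ((vpol W ℓ + 1).eval x) ≠ 0 := by
      rw [Ne, map_eq_zero]; exact hB
    apply hno (-(upol W ℓ + lpol W ℓ).eval x / (vpol W ℓ + 1).eval x)
    have : f (-(upol W ℓ + lpol W ℓ).eval x / (vpol W ℓ + 1).eval x) = y := by
      rw [map_div₀, map_neg, div_eq_iff hB']
      linear_combination -hrel
    rw [this]; exact hy
  refine ⟨?_, hB⟩
  rw [hB, map_zero, zero_mul, add_zero, map_eq_zero] at hrel
  exact hrel

theorem sq_dvd_Pm {x : ZMod ℓ} (hx : x ∈ Z0 W ℓ) : (X - C x) ^ 2 ∣ Pm W ℓ := by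
  obtain ⟨hA, hB⟩ := eval_of_mem_Z0 W ℓ hx
  obtain ⟨A, hA⟩ := dvd_iff_isRoot.mpr hA
  obtain ⟨B, hB⟩ := dvd_iff_isRoot.mpr hB
  obtain ⟨D, hD⟩ : (X - C x) ∣ dpol ℓ := by
    rw [dvd_iff_isRoot, IsRoot.def, dpol, eval_sub, eval_pow, eval_X, ZMod.pow_card, sub_self]
  unfold Pm
  rw [hA, hB, hD]
  exact ⟨B ^ 2 * cpol W ℓ + A * B * lpol W ℓ - A ^ 2 - (C (W.a₂ : ZMod ℓ) + X ^ ℓ + X) * D ^ 2,
    by ring⟩

end Fermat.Agent.S58.GCH
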