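import Fermat.Agent.S58.GCH.M2
import Fermat.Agent.S58.GCH.Count

/-!
# S58 / GCH, task GC-M1 : over `x₀ ∈ Z1` (a rational `2`-torsion point) `Pm` has a simple zero
-/

set_option autoImplicit false
set_option linter.unusedSectionVars false

noncomputable section

namespace Fermat.Agent.S58.GCH

open Polynomial WeierstrassCurve

variable (W : WeierstrassCurve ℤ) (ℓ : ℕ) [Fact ℓ.Prime]

theorem eval_uv_Z1 {x y : ZMod ℓ} (h : Eqn W ℓ x y) (h2 : 2 * y + (lpol W ℓ).eval x = 0) (j : ℕ) :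
    (uv W ℓ (j + 1)).1.eval x = - (j : ZMod ℓ) * y ^ (j + 1) ∧
      (uv W ℓ (j + 1)).2.eval x = ((j : ZMod ℓ) + 1) * y ^ j := by
  have hl : (lpol W ℓ).eval x = -2 * y := by linear_combination h2
  have hc : (cpol W ℓ).eval x = - y ^ 2 := by
    unfold Eqn at h
    rw [← h, hl]; ring
  induction j with
  | zero => simp [uv_succ, uv_zero]
  | succ j ih =>
    obtain ⟨ih1, ih2⟩ := ih
    rw [uv_succ W ℓ (j + 1)]
    simp only [eval_mul, eval_sub, ih1, ih2, hl, hc]
    push_cast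
    constructor <;> ring

theorem eval_of_Z1 {x y : ZMod ℓ} (h : Eqn W ℓ x y) (h2 : 2 * y + (lpol W ℓ).eval x = 0) :
    (upol W ℓ).eval x = y ∧ (vpol W ℓ).eval x = 0 := by
  have hprime : ℓ.Prime := Fact.out
  obtain ⟨j, hj⟩ : ∃ j, ℓ = j + 1 := ⟨ℓ - 1, by have := hprime.pos; omega⟩
  obtain ⟨h3, h4⟩ := eval_uv_Z1 W ℓ h h2 j
  have hj0 : (j : ZMod ℓ) + 1 = 0 := by
    have : ((j + 1 : ℕ) : ZMod ℓ) = 0 := by rw [← hj]; exact CharP.cast_eq_zero _ _
    exact_mod_cast this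
  have hy : y ^ (j + 1) = y := by rw [← hj]; exact ZMod.pow_card y
  unfold upol vpol
  rw [← hj] at h3 h4
  rw [ZMod.pow_card] at h3
  constructor
  · rw [h3]; linear_combination (-y) * hj0
  · rw [h4, hj0, zero_mul]

theorem eval_Pm_Z1 (hΔ : ¬ (ℓ : ℤ) ∣ W.Δ) {x : ZMod ℓ} (hx : x ∈ Z1 W ℓ) :
    (Pm W ℓ).eval x = 0 ∧ (derivative (Pm W ℓ)).eval x ≠ 0 := by
  obtain ⟨y, h, h2⟩ := (mem_Z1 W ℓ).mp hx
  obtain ⟨hu, hv⟩ := eval_of_Z1 W ℓ h h2
  have hl : (lpol W ℓ).eval x = -2 * y := by linear_combination h2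
  have hc : (cpol W ℓ).eval x = - y ^ 2 := by
    have h' := h
    unfold Eqn at h'
    rw [← h', hl]; ring
  constructor
  · unfold Pm
    simp only [eval_sub, eval_add, eval_mul, eval_pow, eval_one, hu, hv, eval_dpol, hl, hc]
    ring
  · have hns := (Affine.equation_iff_nonsingular_of_Δ_ne_zero (red_Δ_ne_zero W ℓ hΔ)).mp
      ((equation_red_iff W ℓ x y).mpr h)
    rw [Affine.nonsingular_iff] at hns
    simp only [reductionMod, map_a₁, map_a₂, map_a₃, map_a₄, eq_intCast] at hns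
    have hl' : (lpol W ℓ).eval x = (W.a₁ : ZMod ℓ) * x + (W.a₃ : ZMod ℓ) := by
      rw [← ev_id, ev_lpol]
    have hns' : (W.a₁ : ZMod ℓ) * y ≠ 3 * x ^ 2 + 2 * (W.a₂ : ZMod ℓ) * x + (W.a₄ : ZMod ℓ) := by
      rcases hns.2 with h3 | h3
      · exact h3
      · exfalso; apply h3
        rw [hl'] at h2
        linear_combination h2
    have hdl : (derivative (lpol W ℓ)).eval x = (W.a₁ : ZMod ℓ) := by
      simp [lpol]
    have hdc : (derivative (cpol W ℓ)).eval x
        = 3 * x ^ 2 + 2 * (W.a₂ : ZMod ℓ) * x + (W.a₄ : ZMod ℓ) := by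
      simp [cpol]; ring
    have key : (derivative (Pm W ℓ)).eval x
        = (derivative (cpol W ℓ)).eval x - (derivative (lpol W ℓ)).eval x * y := by
      unfold Pm
      simp only [derivative_sub, derivative_add, derivative_mul, derivative_pow, derivative_one,
        eval_sub, eval_add, eval_mul, eval_pow, eval_one, eval_zero, eval_C,
        hu, hv, eval_dpol, hl, hc]
      push_cast
      ring
    rw [key, hdl, hdc]
    intro h0
    apply hns'
    linear_combination -h0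

end Fermat.Agent.S58.GCH
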