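import Fermat.Agent.S58.GCH.Ident

/-!
# S58 / GCH, task GC-M2 : over `x₀ ∈ Z2` (two rational points) `Pm(x₀) ≠ 0`
-/

set_option autoImplicit false
set_option linter.unusedSectionVars false

noncomputable section

namespace Fermat.Agent.S58.GCH

open Polynomial WeierstrassCurve

variable (W : WeierstrassCurve ℤ) (ℓ : ℕ) [Fact ℓ.Prime]

theorem eval_dpol (x : ZMod ℓ) : (dpol ℓ).eval x = 0 := by
  rw [dpol, eval_sub, eval_pow, eval_X, ZMod.pow_card, sub_self]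

theorem eval_of_Z2 {x y : ZMod ℓ} (h : Eqn W ℓ x y) (h2 : 2 * y + (lpol W ℓ).eval x ≠ 0) :
    (upol W ℓ).eval x = 0 ∧ (vpol W ℓ).eval x = 1 := by
  have h1 := pow_eq_uv W (RingHom.id (ZMod ℓ)) x y (by rw [ev_id, ev_id]; exact h) ℓ
  have h3 := pow_eq_uv W (RingHom.id (ZMod ℓ)) x (- y - (lpol W ℓ).eval x)
    (by rw [ev_id, ev_id]; exact eqn_conj h) ℓ
  rw [ev_id, ev_id, ZMod.pow_card] at h1 h3
  change _ = (upol W ℓ).eval x + (vpol W ℓ).eval x * _ at h1 h3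
  have hv : (vpol W ℓ).eval x = 1 := by
    have : ((vpol W ℓ).eval x - 1) * (2 * y + (lpol W ℓ).eval x) = 0 := by
      linear_combination h3 - h1
    rcases mul_eq_zero.mp this with h | h
    · linear_combination h
    · exact absurd h h2
  refine ⟨?_, hv⟩
  rw [hv] at h1
  linear_combination -h1

theorem eval_Pm_Z2 {x : ZMod ℓ} (hx : x ∈ Z2 W ℓ) : (Pm W ℓ).eval x ≠ 0 := by
  obtain ⟨y, h, h2⟩ := (mem_Z2 W ℓ).mp hx
  obtain ⟨hu, hv⟩ := eval_of_Z2 W ℓ h h2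
  have : (Pm W ℓ).eval x = (2 * y + (lpol W ℓ).eval x) ^ 2 := by
    unfold Pm
    simp only [eval_sub, eval_add, eval_mul, eval_pow, eval_one, hu, hv, eval_dpol]
    unfold Eqn at h
    linear_combination (-4 : ZMod ℓ) * h
  rw [this]
  exact pow_ne_zero 2 h2

end Fermat.Agent.S58.GCH
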