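import Fermat.Agent.S58.GCH.PolyAbs
import Fermat.Agent.S58.GCH.Lead
import Fermat.Agent.S58.GCH.M0
import Fermat.Agent.S58.GCH.M1

/-!
# S58 / GCH, task GC-Poly : the reduced fraction representing `φ - 1`
-/

set_option autoImplicit false
set_option linter.unusedSectionVars false

noncomputable section

namespace Fermat.Agent.S58.GCH

open Polynomial WeierstrassCurve Fermat.Agent.S52.CH

variable (W : WeierstrassCurve ℤ) (ℓ : ℕ) [Fact ℓ.Prime]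

theorem exists_frob_sub_poly (hΔ : ¬ (ℓ : ℤ) ∣ W.Δ) :
    ∃ n d e : (ZMod ℓ)[X], IsCoprime n d ∧ d.degree < n.degree ∧
      n.natDegree = 1 + (Z1 W ℓ).card + 2 * (Z2 W ℓ).card ∧
      n * e = Pm W ℓ ∧ d * e = dpol ℓ ^ 2 :=
  exists_frob_sub_poly_of W ℓ (Pm W ℓ) (natDegree_Pm W ℓ) (fun _ hx => sq_dvd_Pm W ℓ hx)
    (fun _ hx => eval_Pm_Z1 W ℓ hΔ hx) (fun _ hx => eval_Pm_Z2 W ℓ hx)

end Fermat.Agent.S58.GCH
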