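import Fermat.Agent.S58.GCH.Count
import Fermat.Agent.S52.CH.FrobPoly

/-!
# S58, chapter GCH, task GC-Poly (abstract part): the reduced fraction representing `φ - 1`, from the local
behaviour of `Pm` at the points of `𝔽_ℓ`.
-/

set_option autoImplicit false
set_option linter.unusedSectionVars false

namespace Fermat.Agent.S58.GCH

open Polynomial

open Fermat.Agent.S52.CH (prodX prodX_ne_zero natDegree_prodX prodX_dvd isCoprime_prodX
  eval_prodX_eq_zero_iff)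

variable (W : WeierstrassCurve ℤ) (ℓ : ℕ) [Fact ℓ.Prime]

/-- `X^ℓ - X = ∏_{x₀ ∈ 𝔽_ℓ} (X - x₀)`, split according to `univ = Z0 ⊔ Z1 ⊔ Z2`. -/
theorem dpol_eq :
    dpol ℓ = prodX ℓ (Z0 W ℓ) * prodX ℓ (Z1 W ℓ) * prodX ℓ (Z2 W ℓ) := by
  have hprime : ℓ.Prime := Fact.out
  have hd : Disjoint (Z0 W ℓ ∪ Z1 W ℓ) (Z2 W ℓ) :=
    Finset.disjoint_union_left.mpr ⟨disjoint_Z0_Z2 W ℓ, disjoint_Z1_Z2 W ℓ⟩
  unfold prodX dpol
  rw [← Finset.prod_union (disjoint_Z0_Z1 W ℓ), ← Finset.prod_union hd, union_Z]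
  have hroots : (X ^ ℓ - X : (ZMod ℓ)[X]).roots = Finset.univ.val := by
    have := FiniteField.roots_X_pow_card_sub_X (ZMod ℓ)
    rwa [ZMod.card] at this
  have hdeg : (X ^ ℓ - X : (ZMod ℓ)[X]).natDegree = ℓ :=
    FiniteField.X_pow_card_sub_X_natDegree_eq _ hprime.one_lt
  have hmonic : (X ^ ℓ - X : (ZMod ℓ)[X]).Monic := by
    apply monic_X_pow_sub
    rw [degree_X]
    exact_mod_cast hprime.one_lt
  have := prod_multiset_X_sub_C_of_monic_of_roots_card_eq hmonic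
    (by rw [hroots, hdeg]; simp [ZMod.card])
  rw [← this, hroots]
  rfl

/-- a product of squares of distinct linear factors. -/
theorem prodX_sq_dvd (s : Finset (ZMod ℓ)) (p : (ZMod ℓ)[X]) (h : ∀ x ∈ s, (X - C x) ^ 2 ∣ p) :
    prodX ℓ s ^ 2 ∣ p := by
  unfold prodX
  rw [← Finset.prod_pow]
  apply Finset.prod_dvd_of_coprime
  · intro x _ y _ hxy
    exact (pairwise_coprime_X_sub_C (s := fun x : ZMod ℓ => x) (fun _ _ h => h) hxy).pow
  · intro x hx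
    exact h x hx

theorem isCoprime_prodX_prodX {s t : Finset (ZMod ℓ)} (h : Disjoint s t) :
    IsCoprime (prodX ℓ s) (prodX ℓ t) := by
  apply isCoprime_prodX
  intro x hx h0
  exact Finset.disjoint_right.mp h hx ((eval_prodX_eq_zero_iff ℓ s x).mp h0)

/-- the derivative of a product of distinct linear factors does not vanish at its roots. -/
theorem eval_derivative_prodX_ne_zero {s : Finset (ZMod ℓ)} {x : ZMod ℓ} (hx : x ∈ s) :
    (derivative (prodX ℓ s)).eval x ≠ 0 := by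
  classical
  have h1 : prodX ℓ s = (X - C x) * prodX ℓ (s.erase x) := by
    unfold prodX
    rw [Finset.mul_prod_erase s (fun y => X - C y) hx]
  rw [h1, derivative_mul, eval_add, eval_mul, eval_mul]
  simp only [derivative_sub, derivative_X, derivative_C, sub_zero, eval_one, one_mul, eval_sub,
    eval_X, eval_C, sub_self, zero_mul, add_zero]
  intro h0
  exact Finset.notMem_erase x s ((eval_prodX_eq_zero_iff ℓ _ x).mp h0)

/-- TASK GC-Poly, abstract form. -/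
theorem exists_frob_sub_poly_of (P : (ZMod ℓ)[X]) (hdeg : P.natDegree = 2 * ℓ + 1)
    (h0 : ∀ x ∈ Z0 W ℓ, (X - C x) ^ 2 ∣ P)
    (h1 : ∀ x ∈ Z1 W ℓ, P.eval x = 0 ∧ (derivative P).eval x ≠ 0)
    (h2 : ∀ x ∈ Z2 W ℓ, P.eval x ≠ 0) :
    ∃ n d e : (ZMod ℓ)[X], IsCoprime n d ∧ d.degree < n.degree ∧
      n.natDegree = 1 + (Z1 W ℓ).card + 2 * (Z2 W ℓ).card ∧
      n * e = P ∧ d * e = dpol ℓ ^ 2 := by
  have hcard := card_Z_add W ℓ
  have hP0 := prodX_ne_zero ℓ (Z0 W ℓ)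
  have hP1 := prodX_ne_zero ℓ (Z1 W ℓ)
  have hP2 := prodX_ne_zero ℓ (Z2 W ℓ)
  have dP0 := natDegree_prodX ℓ (Z0 W ℓ)
  have dP1 := natDegree_prodX ℓ (Z1 W ℓ)
  have dP2 := natDegree_prodX ℓ (Z2 W ℓ)
  have z0 := eval_prodX_eq_zero_iff ℓ (Z0 W ℓ)
  have z1 := eval_prodX_eq_zero_iff ℓ (Z1 W ℓ)
  have c1 := isCoprime_prodX ℓ (Z1 W ℓ)
  have c2 := isCoprime_prodX ℓ (Z2 W ℓ)
  have hQ := dpol_eq W ℓ
  have d1 : prodX ℓ (Z0 W ℓ) ^ 2 ∣ P := prodX_sq_dvd ℓ _ _ h0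
  have d2 : prodX ℓ (Z1 W ℓ) ∣ P := prodX_dvd ℓ _ _ (fun x hx => (h1 x hx).1)
  have hcop : IsCoprime (prodX ℓ (Z0 W ℓ) ^ 2) (prodX ℓ (Z1 W ℓ)) :=
    (isCoprime_prodX_prodX ℓ (disjoint_Z0_Z1 W ℓ)).pow_left
  have der1 : ∀ x ∈ Z1 W ℓ, (derivative (prodX ℓ (Z1 W ℓ))).eval x ≠ 0 :=
    fun x hx => eval_derivative_prodX_ne_zero ℓ hx
  have nz0 : ∀ x ∈ Z1 W ℓ, (prodX ℓ (Z0 W ℓ)).eval x ≠ 0 := fun x hx h =>
    Finset.disjoint_right.mp (disjoint_Z0_Z1 W ℓ) hx ((z0 x).mp h)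
  obtain ⟨n, hn⟩ := hcop.mul_dvd d1 d2
  set P0 := prodX ℓ (Z0 W ℓ) with hP0def
  set P1 := prodX ℓ (Z1 W ℓ) with hP1def
  set P2 := prodX ℓ (Z2 W ℓ) with hP2def
  have hne : n * (P0 ^ 2 * P1) = P := by rw [hn]; ring
  have hPne : P ≠ 0 := by
    intro h
    rw [h, natDegree_zero] at hdeg
    omega
  have hn0 : n ≠ 0 := by
    intro h
    apply hPne
    rw [← hne, h, zero_mul]
  have he0 : P0 ^ 2 * P1 ≠ 0 := mul_ne_zero (pow_ne_zero 2 hP0) hP1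
  have hedeg : (P0 ^ 2 * P1).natDegree = 2 * (Z0 W ℓ).card + (Z1 W ℓ).card := by
    rw [natDegree_mul (pow_ne_zero 2 hP0) hP1, natDegree_pow, dP0, dP1]
  have hddeg : (P1 * P2 ^ 2).natDegree = (Z1 W ℓ).card + 2 * (Z2 W ℓ).card := by
    rw [natDegree_mul hP1 (pow_ne_zero 2 hP2), natDegree_pow, dP1, dP2]
  have hndeg : n.natDegree = 1 + (Z1 W ℓ).card + 2 * (Z2 W ℓ).card := by
    have := natDegree_mul hn0 he0
    rw [hne, hdeg, hedeg] at this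
    omega
  refine ⟨n, P1 * P2 ^ 2, P0 ^ 2 * P1, ?_, ?_, hndeg, hne, ?_⟩
  · refine IsCoprime.mul_right (c1 _ ?_) (IsCoprime.pow_right (c2 _ ?_))
    · intro x hx hnx
      apply (h1 x hx).2
      rw [← hne]
      simp only [derivative_mul, eval_add, eval_mul, hnx, (z1 x).mpr hx, mul_zero, zero_mul,
        add_zero]
    · intro x hx hnx
      apply h2 x hx
      rw [← hne, eval_mul, hnx, zero_mul]
  · apply degree_lt_degree
    rw [hndeg, hddeg]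
    omega
  · rw [hQ]; ring

end Fermat.Agent.S58.GCH
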