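import Fermat.Agent.S58.GCH.Defs

/-!
# S58, chapter GCH, leaf GC-Split : `𝔽 = Z0 ⊔ Z1 ⊔ Z2` and `X^q - X = P0 P1 P2`
-/

set_option autoImplicit false
set_option linter.unusedSectionVars false

noncomputable section

namespace Fermat.Agent.S58.GCH

open Polynomial WeierstrassCurve Fermat.Agent.S52.CH

variable (W : WeierstrassCurve ℤ) (ℓ : ℕ) [Fact ℓ.Prime]

variable {W ℓ} in
/-- two solutions of the equation over the same `x`. -/
theorem eqn_eq_or {x y y' : ZMod ℓ} (h : Eqn W ℓ x y) (h' : Eqn W ℓ x y') :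
    y' = y ∨ y' = -y - (lpol W ℓ).eval x := by
  have e : (y' - y) * (y' - (-y - (lpol W ℓ).eval x)) = 0 := by
    unfold Eqn at h h'
    linear_combination h' - h
  rcases mul_eq_zero.1 e with e | e
  · exact Or.inl (sub_eq_zero.1 e)
  · exact Or.inr (sub_eq_zero.1 e)

theorem disj01 : Disjoint (Z0 W ℓ) (Z1 W ℓ) := by
  rw [Finset.disjoint_left]
  intro x h0 h1
  obtain ⟨y, hy, -⟩ := (mem_Z1 W ℓ).1 h1
  exact (mem_Z0 W ℓ).1 h0 y hy

theorem disj02 : Disjoint (Z0 W ℓ) (Z2 W ℓ) := by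
  rw [Finset.disjoint_left]
  intro x h0 h1
  obtain ⟨y, hy, -⟩ := (mem_Z2 W ℓ).1 h1
  exact (mem_Z0 W ℓ).1 h0 y hy

theorem disj12 : Disjoint (Z1 W ℓ) (Z2 W ℓ) := by
  rw [Finset.disjoint_left]
  intro x h1 h2
  obtain ⟨y, hy, hy0⟩ := (mem_Z1 W ℓ).1 h1
  obtain ⟨y', hy', hy0'⟩ := (mem_Z2 W ℓ).1 h2
  apply hy0'
  rcases eqn_eq_or hy hy' with rfl | rfl
  · exact hy0
  · linear_combination -hy0

theorem disj012 : Disjoint (Z0 W ℓ ∪ Z1 W ℓ) (Z2 W ℓ) :=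
  Finset.disjoint_union_left.2 ⟨disj02 W ℓ, disj12 W ℓ⟩

theorem union012 : Z0 W ℓ ∪ Z1 W ℓ ∪ Z2 W ℓ = Finset.univ := by
  ext x
  simp only [Finset.mem_union, Finset.mem_univ, iff_true]
  by_cases h0 : x ∈ Z0 W ℓ
  · exact Or.inl (Or.inl h0)
  · rw [mem_Z0] at h0
    push Not at h0
    obtain ⟨y, hy⟩ := h0
    by_cases h : 2 * y + (lpol W ℓ).eval x = 0
    · exact Or.inl (Or.inr ((mem_Z1 W ℓ).2 ⟨y, hy, h⟩))
    · exact Or.inr ((mem_Z2 W ℓ).2 ⟨y, hy, h⟩)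

theorem card012 : (Z0 W ℓ).card + (Z1 W ℓ).card + (Z2 W ℓ).card = ℓ := by
  rw [← Finset.card_union_of_disjoint (disj01 W ℓ),
    ← Finset.card_union_of_disjoint (disj012 W ℓ), union012, Finset.card_univ, ZMod.card]

theorem dpol_eq_univ : dpol ℓ = prodX ℓ Finset.univ := by
  have hprime : ℓ.Prime := Fact.out
  unfold prodX dpol
  have hroots : (X ^ ℓ - X : (ZMod ℓ)[X]).roots = Finset.univ.val := by
    have := FiniteField.roots_X_pow_card_sub_X (ZMod ℓ)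
    rwa [ZMod.card] at this
  have hdeg : (X ^ ℓ - X : (ZMod ℓ)[X]).natDegree = ℓ :=
    FiniteField.X_pow_card_sub_X_natDegree_eq _ hprime.one_lt
  have hmonic : (X ^ ℓ - X : (ZMod ℓ)[X]).Monic := by
    apply monic_X_pow_sub
    rw [degree_X]
    exact_mod_cast hprime.one_lt
  have := prod_multiset_X_sub_C_of_monic_of_roots_card_eq hmonic
    (by rw [hroots, hdeg]; simp [ZMod.card])
  rw [← this, hroots]
  rfl

theorem split_dpol_eq : dpol ℓ = prodX ℓ (Z0 W ℓ) * prodX ℓ (Z1 W ℓ) * prodX ℓ (Z2 W ℓ) := by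
  rw [dpol_eq_univ, ← union012 W ℓ]
  unfold prodX
  rw [Finset.prod_union (disj012 W ℓ), Finset.prod_union (disj01 W ℓ)]

/-- an element of a field of characteristic `ℓ` fixed by the Frobenius lies in the prime field. -/
theorem exists_io_eq (k : Type*) [Field k] [CharP k ℓ] {y : k} (hy : y ^ ℓ = y) :
    ∃ a : ZMod ℓ, io ℓ k a = y := by
  have h := congrArg (ev (io ℓ k) y) (dpol_eq_univ ℓ)
  rw [ev_dpol, hy, sub_self, prodX, map_prod] at h
  obtain ⟨a, -, ha⟩ := Finset.prod_eq_zero_iff.1 h.symm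
  rw [map_sub, ev_X, ev_C] at ha
  exact ⟨a, (sub_eq_zero.1 ha).symm⟩

end Fermat.Agent.S58.GCH
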