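import Fermat.Agent.S58.GCH.Defs

/-!
# S58, chapter GCH, leaf GC-UV : `y^j = u_j(x) + v_j(x) y` on the curve; degrees of `u_j`, `v_j`
-/

set_option autoImplicit false
set_option linter.unusedSectionVars false

noncomputable section

namespace Fermat.Agent.S58.GCH

open Polynomial WeierstrassCurve

variable (W : WeierstrassCurve ℤ) (ℓ : ℕ) [Fact ℓ.Prime]

variable {ℓ} in
theorem pow_eq_uv {R : Type*} [CommRing R] (f : ZMod ℓ →+* R) (x y : R)
    (h : y ^ 2 + ev f x (lpol W ℓ) * y = ev f x (cpol W ℓ)) (j : ℕ) :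
    y ^ j = ev f x (uv W ℓ j).1 + ev f x (uv W ℓ j).2 * y := by
  induction j with
  | zero => simp [uv_zero]
  | succ j ih =>
    rw [pow_succ, ih, uv_succ]
    simp only [map_mul, map_sub]
    linear_combination (ev f x (uv W ℓ j).2) * h

theorem natDegree_cpol_le : (cpol W ℓ).natDegree ≤ 3 := by
  unfold cpol; compute_degree

theorem natDegree_lpol_le : (lpol W ℓ).natDegree ≤ 1 := by
  unfold lpol; compute_degree

theorem natDegree_uv (j : ℕ) : 2 * (uv W ℓ j).1.natDegree ≤ 3 * j ∧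
    ((uv W ℓ j).2 = 0 ∨ 2 * (uv W ℓ j).2.natDegree + 3 ≤ 3 * j) := by
  induction j with
  | zero => simp [uv_zero]
  | succ j ih =>
    obtain ⟨hu, hv⟩ := ih
    have hc := natDegree_cpol_le W ℓ
    have hl := natDegree_lpol_le W ℓ
    rw [uv_succ]
    constructor
    · rcases hv with hv | hv
      · simp [hv]
      · have := natDegree_mul_le (p := (uv W ℓ j).2) (q := cpol W ℓ)
        show 2 * ((uv W ℓ j).2 * cpol W ℓ).natDegree ≤ 3 * (j + 1)
        omega
    · right
      show 2 * ((uv W ℓ j).1 - lpol W ℓ * (uv W ℓ j).2).natDegree + 3 ≤ 3 * (j + 1)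
      have h1 := natDegree_sub_le (uv W ℓ j).1 (lpol W ℓ * (uv W ℓ j).2)
      rcases hv with hv | hv
      · rw [hv, mul_zero, sub_zero]
        omega
      · have h2 := natDegree_mul_le (p := lpol W ℓ) (q := (uv W ℓ j).2)
        rcases le_max_iff.1 h1 with h3 | h3 <;> omega

theorem natDegree_u_le (j : ℕ) : 2 * (uv W ℓ j).1.natDegree ≤ 3 * j := (natDegree_uv W ℓ j).1

theorem natDegree_v_le (j : ℕ) : (uv W ℓ j).2 = 0 ∨ 2 * (uv W ℓ j).2.natDegree + 3 ≤ 3 * j :=
  (natDegree_uv W ℓ j).2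

end Fermat.Agent.S58.GCH
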